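import Mathlib
import Fermat.Agent.LT.A2.H54.LocFinSpec
import Fermat.Agent.LT.H129.Newton

/-!
# Row LT, tower A2, leaf A2.03.1.1.06.10 `LF54.LeafNonNormSum` (helper887) -- OFF-MAIN

If the norm form `Q(x, y) = x² + t x y + n y²` over `K_v` misses a nonzero value, then some
nonzero sum of two values is missed.

Proof by contradiction.  Suppose every nonzero sum of two values is a value.  Then the set `N`
of values contains `0`, `1` and all squares, and it is closed under addition and (always) under
multiplication, so it contains every natural number.  With `m = N(v)` the absolute norm of `v`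
we have `|4 m| < 1`, so `1 - 4 m` is a square `s²` (Newton iteration, helper129), hence
`-1 = (s / (4 m - 1))² (4 m - 1)` is a value, hence `2 x = (x + 1)² + (-1) x² + (-1)` and
`x = 2 (x / 2)` are values for all `x`: nothing is missed.  No compactness is needed, and the
hypothesis `t² - 4 n ≠ 0` is not used.
-/

set_option autoImplicit false

open IsDedekindDomain NumberField

noncomputable section

namespace Fermat.Agent.LT.A2.H887

open Fermat.Agent.LT.A2 Fermat.Agent.LT.A2.WX467 Fermat.Agent.LT.A2.LF54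

section Alg

variable {k : Type} [NormedField k]

/-- The norm form is multiplicative. -/
theorem qfL_mul887 (t n x y x' y' : k) :
    qfL t n (x, y) * qfL t n (x', y')
      = qfL t n (x * x' - n * y * y', x * y' + x' * y + t * y * y') := by
  simp only [qfL]
  ring

theorem isNormL_zero887 (t n : k) : IsNormL t n 0 := ⟨0, 0, by simp [qfL]⟩

theorem isNormL_sq887 (t n c : k) : IsNormL t n (c ^ 2) := ⟨c, 0, by simp [qfL]⟩

theorem isNormL_one887 (t n : k) : IsNormL t n 1 := by
  simpa using isNormL_sq887 t n 1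

theorem isNormL_mul887 {t n a b : k} (ha : IsNormL t n a) (hb : IsNormL t n b) :
    IsNormL t n (a * b) := by
  obtain ⟨x, y, rfl⟩ := ha
  obtain ⟨x', y', rfl⟩ := hb
  exact ⟨_, _, (qfL_mul887 t n x y x' y').symm⟩

/-- The negation of the conclusion of `NonNormSumP`: the values are closed under nonzero sums. -/
def SumClosed887 (t n : k) : Prop :=
  ∀ x₁ y₁ x₂ y₂ : k, qfL t n (x₁, y₁) + qfL t n (x₂, y₂) ≠ 0 →
    IsNormL t n (qfL t n (x₁, y₁) + qfL t n (x₂, y₂))

theorem isNormL_add887 {t n : k} (H : SumClosed887 t n) {a b : k}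
    (ha : IsNormL t n a) (hb : IsNormL t n b) : IsNormL t n (a + b) := by
  obtain ⟨x, y, rfl⟩ := ha
  obtain ⟨x', y', rfl⟩ := hb
  by_cases h0 : qfL t n (x, y) + qfL t n (x', y') = 0
  · rw [h0]; exact isNormL_zero887 t n
  · exact H x y x' y' h0

theorem isNormL_natCast887 {t n : k} (H : SumClosed887 t n) (m : ℕ) : IsNormL t n (m : k) := by
  induction m with
  | zero => simpa using isNormL_zero887 t n
  | succ m ih =>
    rw [Nat.cast_succ]
    exact isNormL_add887 H ih (isNormL_one887 t n)

/-- If `-1` is a value and `2 ≠ 0`, everything is a value. -/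
theorem isNormL_all887 {t n : k} (H : SumClosed887 t n) (h2 : (2 : k) ≠ 0)
    (hneg : IsNormL t n (-1)) (x : k) : IsNormL t n x := by
  have hdouble : ∀ z : k, IsNormL t n (2 * z) := by
    intro z
    have h1 : IsNormL t n ((z + 1) ^ 2 + (-1) * z ^ 2 + (-1)) :=
      isNormL_add887 H
        (isNormL_add887 H (isNormL_sq887 t n (z + 1)) (isNormL_mul887 hneg (isNormL_sq887 t n z)))
        hneg
    have e : (z + 1) ^ 2 + (-1) * z ^ 2 + (-1) = 2 * z := by ring
    rwa [e] at h1
  have := hdouble (x / 2)
  rwa [mul_div_cancel₀ x h2] at this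

/-- The abstract form: if `1 - 4 m` is a square for some natural `m ≥ 1` with `4 m ≠ 1`, and
`2 ≠ 0`, then `NonNormSumP` holds. -/
theorem nonNormSumP_of_sq887 (t n : k) (h2 : (2 : k) ≠ 0) (m : ℕ) (hm : 1 ≤ m)
    (hne : (4 : k) * (m : k) - 1 ≠ 0) (s : k) (hs : s ^ 2 = 1 - 4 * (m : k)) :
    NonNormSumP t n := by
  rintro ⟨a, _, ha⟩
  by_contra hcon
  have H : SumClosed887 t n := by
    intro x₁ y₁ x₂ y₂ h0
    by_contra hN
    exact hcon ⟨x₁, y₁, x₂, y₂, h0, hN⟩
  have hcast : ((4 * m - 1 : ℕ) : k) = 4 * (m : k) - 1 := by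
    have : 1 ≤ 4 * m := by omega
    rw [Nat.cast_sub this]
    push_cast
    ring
  have hnat : IsNormL t n (4 * (m : k) - 1) := by
    rw [← hcast]
    exact isNormL_natCast887 H _
  have hneg : IsNormL t n (-1) := by
    have h1 : IsNormL t n ((s / (4 * (m : k) - 1)) ^ 2 * (4 * (m : k) - 1)) :=
      isNormL_mul887 (isNormL_sq887 t n _) hnat
    have e : (s / (4 * (m : k) - 1)) ^ 2 * (4 * (m : k) - 1) = -1 := by
      rw [div_pow, hs]
      field_simp
      ring
    rwa [e] at h1
  exact ha (isNormL_all887 H h2 hneg a)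

end Alg

section Adic

variable (K : Type) [Field K] [NumberField K] (v : HeightOneSpectrum (𝓞 K))

/-- The absolute norm of `v` has valuation `< 1` in `K_v`. -/
theorem valued_absNorm_lt_one887 :
    Valued.v ((Ideal.absNorm v.asIdeal : ℕ) : v.adicCompletion K) < 1 := by
  have hmem : ((Ideal.absNorm v.asIdeal : ℕ) : 𝓞 K) ∈ v.asIdeal := Ideal.absNorm_mem v.asIdeal
  have h1 : v.valuation K (algebraMap (𝓞 K) K ((Ideal.absNorm v.asIdeal : ℕ) : 𝓞 K)) < 1 :=
    (HeightOneSpectrum.valuation_lt_one_iff_mem v _).mpr hmem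
  have h2 := HeightOneSpectrum.valuedAdicCompletion_eq_valuation' (K := K) v
    (algebraMap (𝓞 K) K ((Ideal.absNorm v.asIdeal : ℕ) : 𝓞 K))
  have e : ((Ideal.absNorm v.asIdeal : ℕ) : v.adicCompletion K)
      = algebraMap K (v.adicCompletion K)
          (algebraMap (𝓞 K) K ((Ideal.absNorm v.asIdeal : ℕ) : 𝓞 K)) := by
    rw [map_natCast, map_natCast]
  rw [e]
  exact lt_of_eq_of_lt h2 h1

theorem two_ne_zero_adic887 : (2 : v.adicCompletion K) ≠ 0 := by
  have hinj : Function.Injective (algebraMap K (v.adicCompletion K)) :=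
    (algebraMap K (v.adicCompletion K)).injective
  intro h
  have h2 : algebraMap K (v.adicCompletion K) 2 = algebraMap K (v.adicCompletion K) 0 := by
    rw [map_ofNat, map_zero]
    exact h
  exact two_ne_zero (hinj h2)

/-- **Leaf A2.03.1.1.06.10.** -/
theorem leafNonNormSum887 : LeafNonNormSum := by
  intro K _ _ v t n _
  set m : ℕ := Ideal.absNorm v.asIdeal with hm
  have hv : Valued.v ((m : ℕ) : v.adicCompletion K) < 1 := valued_absNorm_lt_one887 K v
  have hv4 : Valued.v ((4 : v.adicCompletion K) * (m : v.adicCompletion K)) < 1 := by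
    rw [map_mul]
    have h4 : Valued.v (4 : v.adicCompletion K) ≤ 1 := by
      have e4 : (4 : v.adicCompletion K) = ((4 : ℕ) : v.adicCompletion K) := by norm_cast
      have hint : ((4 : ℕ) : v.adicCompletion K) ∈ v.adicCompletionIntegers K :=
        natCast_mem _ 4
      rw [e4]
      exact hint
    calc Valued.v (4 : v.adicCompletion K) * Valued.v (m : v.adicCompletion K)
        ≤ 1 * Valued.v (m : v.adicCompletion K) := mul_le_mul' h4 le_rfl
      _ = Valued.v (m : v.adicCompletion K) := one_mul _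
      _ < 1 := hv
  have hm1 : 1 ≤ m := by
    rcases Nat.eq_zero_or_pos m with h0 | h0
    · exfalso
      rw [h0, Nat.cast_zero, map_zero] at hv
      -- `0 < 1` is fine; use the ideal instead
      have : Ideal.absNorm v.asIdeal = 0 := h0
      rw [Ideal.absNorm_eq_zero_iff] at this
      exact v.ne_bot this
    · exact h0
  have hne : (4 : v.adicCompletion K) * (m : v.adicCompletion K) - 1 ≠ 0 := by
    intro h
    have h1 : (4 : v.adicCompletion K) * (m : v.adicCompletion K) = 1 := sub_eq_zero.mp h
    rw [h1, map_one] at hv4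
    exact lt_irrefl _ hv4
  obtain ⟨Y, hY⟩ := Fermat.Agent.LT.H129.exists_fixed129 (k := v.adicCompletion K) hv
  have hs : (2 * Y - 1) ^ 2 = 1 - 4 * (m : v.adicCompletion K) := by
    have : (2 * Y - 1) ^ 2 = 1 - 4 * (Y - Y ^ 2) := by ring
    rw [this]
    congr 2
    rw [sub_eq_iff_eq_add]
    rw [add_comm]
    exact hY
  exact nonNormSumP_of_sq887 t n (two_ne_zero_adic887 K v) m hm1 hne (2 * Y - 1) hs

end Adic

end Fermat.Agent.LT.A2.H887
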